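import Fermat.Agent.S24.Mod.H564Core
import Fermat.Agent.S24.H644.ModDeg
import Fermat.Agent.S24.D5.H108Growth

/-!
# S24 / MOD — the invariant polynomial principle for `holBaseJ N` and the degree bound (helper564)

* `exists_growth_of_infExp` : a function with a convergent Laurent expansion in
  `z = exp (2πiτ/N)` has exponential growth at `i∞`;
* `invariantPoly_holBaseJ` : helper644's `InvariantPoly (holBaseJ N)` (via helper108's D5);
* `degree_bound_J` : `[FF N : ℚ̄(j)] ≤ |SL₂(ℤ)/Γ₀(N)|` (helper644's `degree_bound`);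
* `modularPackage_fields` : all fields of helper984's `ModularPackage N`, unconditionally.
-/

set_option autoImplicit false

noncomputable section

open HahnSeries ModularCurve UpperHalfPlane Complex
open scoped Real MatrixGroups Manifold

namespace Fermat.Agent.S24.H564

open Fermat.Agent.S24.H997

variable {N : ℕ} [NeZero N]

/-! ### Growth at `i∞` from a convergent expansion -/

omit [NeZero N] in
theorem norm_infZ (τ : ℍ) : ‖infZ N τ‖ = Real.exp (-2 * π * τ.im / N) := by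
  rw [infZ, Function.Periodic.norm_qParam]
  rfl

/-- A convergent power series in `z = exp (2πiτ/N)` is bounded for `‖z‖ ≤ 1/2`. -/
theorem exists_bound_of_infPExp {g : ℍ → ℂ} {ψ : PowerSeries ℂ} (h : InfPExp N g ψ) :
    ∃ C : ℝ, ∀ τ : ℍ, ‖infZ N τ‖ ≤ 1 / 2 → ‖g τ‖ ≤ C := by
  obtain ⟨τ₀, hτ₀⟩ := exists_infZ_eq N (z := ((3 / 4 : ℝ) : ℂ)) (by norm_num)
    (by rw [Complex.norm_real]; norm_num)
  have h0 := h τ₀
  rw [hτ₀] at h0
  have hterm := h0.summable.tendsto_atTop_zero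
  obtain ⟨B, hB⟩ := (Metric.isBounded_range_of_tendsto _ hterm).exists_norm_le
  have hB' : ∀ n : ℕ, ‖PowerSeries.coeff n ψ‖ * (3 / 4 : ℝ) ^ n ≤ B := by
    intro n
    have := hB _ ⟨n, rfl⟩
    rwa [norm_mul, norm_pow, Complex.norm_real, Real.norm_eq_abs,
      abs_of_pos (by norm_num : (0 : ℝ) < 3 / 4)] at this
  have hB0 : 0 ≤ B := le_trans (by positivity) (hB' 0)
  refine ⟨B * (1 - 2 / 3)⁻¹, fun τ hτ => ?_⟩
  have hgeo : HasSum (fun n : ℕ => B * (2 / 3 : ℝ) ^ n) (B * (1 - 2 / 3)⁻¹) :=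
    (hasSum_geometric_of_lt_one (by norm_num) (by norm_num)).mul_left B
  rw [← (h τ).tsum_eq]
  refine tsum_of_norm_bounded hgeo fun n => ?_
  rw [norm_mul, norm_pow]
  have h1 : ‖infZ N τ‖ ^ n ≤ (1 / 2 : ℝ) ^ n := pow_le_pow_left₀ (norm_nonneg _) hτ n
  calc ‖PowerSeries.coeff n ψ‖ * ‖infZ N τ‖ ^ n
      ≤ ‖PowerSeries.coeff n ψ‖ * (1 / 2 : ℝ) ^ n :=
        mul_le_mul_of_nonneg_left h1 (norm_nonneg _)
    _ = (‖PowerSeries.coeff n ψ‖ * (3 / 4 : ℝ) ^ n) * (2 / 3 : ℝ) ^ n := by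
        rw [mul_assoc, ← mul_pow]; norm_num
    _ ≤ B * (2 / 3 : ℝ) ^ n := mul_le_mul_of_nonneg_right (hB' n) (by positivity)

/-- A function with a convergent Laurent expansion in `exp (2πiτ/N)` has exponential growth. -/
theorem exists_growth_of_infExp {f : ℍ → ℂ} {φ : LaurentSeries ℂ} (h : InfExp N f φ) :
    ∃ m : ℕ, ∃ C A : ℝ, ∀ τ : ℍ, A ≤ τ.im → ‖f τ‖ ≤ C * Real.exp (2 * π * m * τ.im) := by
  obtain ⟨C, hC⟩ := exists_bound_of_infPExp h.powerSeriesPart
  have hN : (0 : ℝ) < N := by exact_mod_cast Nat.pos_of_ne_zero (NeZero.ne N)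
  have hN1 : (1 : ℝ) ≤ N := by exact_mod_cast Nat.one_le_iff_ne_zero.mpr (NeZero.ne N)
  refine ⟨(-φ.order).toNat, C, N, fun τ hτ => ?_⟩
  have hz0 : infZ N τ ≠ 0 := infZ_ne_zero N τ
  have hzpos : 0 < ‖infZ N τ‖ := norm_pos_iff.mpr hz0
  have hzle : ‖infZ N τ‖ ≤ 1 / 2 := by
    rw [norm_infZ]
    have h1 : -2 * π * τ.im / N ≤ -1 := by
      rw [div_le_iff₀ hN]
      have hpi : (3 : ℝ) < π := Real.pi_gt_three
      have him : 0 < τ.im := τ.im_pos
      nlinarith
    calc Real.exp (-2 * π * τ.im / N) ≤ Real.exp (-1) := Real.exp_le_exp.mpr h1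
      _ ≤ 1 / 2 := by
        have := Real.exp_one_gt_d9
        rw [Real.exp_neg, one_div]
        exact inv_anti₀ (by norm_num) (by linarith)
  have hg := hC τ hzle
  rw [norm_mul, norm_zpow] at hg
  -- `‖f τ‖ = ‖z‖ ^ ord * (‖z‖ ^ (-ord) * ‖f τ‖)`
  have hf : ‖f τ‖ = ‖infZ N τ‖ ^ φ.order * (‖infZ N τ‖ ^ (-φ.order) * ‖f τ‖) := by
    rw [← mul_assoc, ← zpow_add₀ hzpos.ne', add_neg_cancel, zpow_zero, one_mul]
  have hC0 : 0 ≤ C := le_trans (by positivity) hg
  have hpow : ‖infZ N τ‖ ^ φ.order ≤ Real.exp (2 * π * ((-φ.order).toNat : ℕ) * τ.im) := by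
    have hz1 : ‖infZ N τ‖ ≤ 1 := hzle.trans (by norm_num)
    have hle : -(((-φ.order).toNat : ℕ) : ℤ) ≤ φ.order := by
      have := Int.self_le_toNat (-φ.order)
      omega
    have h1 : ‖infZ N τ‖ ^ φ.order ≤ ‖infZ N τ‖ ^ (-(((-φ.order).toNat : ℕ) : ℤ)) :=
      zpow_le_zpow_right_of_le_one₀ hzpos hz1 hle
    refine h1.trans ?_
    rw [zpow_neg, zpow_natCast, ← inv_pow, norm_infZ, ← Real.exp_neg, ← Real.exp_nat_mul]
    apply Real.exp_le_exp.mpr
    have him : 0 < τ.im := τ.im_pos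
    have hm0 : (0 : ℝ) ≤ ((-φ.order).toNat : ℕ) := Nat.cast_nonneg _
    have hq : 2 * π * τ.im / N ≤ 2 * π * τ.im := by
      rw [div_le_iff₀ hN]
      have : 0 < 2 * π * τ.im := by positivity
      nlinarith
    have : -(-2 * π * τ.im / N) = 2 * π * τ.im / N := by ring
    rw [this]
    calc (((-φ.order).toNat : ℕ) : ℝ) * (2 * π * τ.im / N)
        ≤ (((-φ.order).toNat : ℕ) : ℝ) * (2 * π * τ.im) :=
          mul_le_mul_of_nonneg_left hq hm0
      _ = 2 * π * ((-φ.order).toNat : ℕ) * τ.im := by ring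
  rw [hf]
  calc ‖infZ N τ‖ ^ φ.order * (‖infZ N τ‖ ^ (-φ.order) * ‖f τ‖)
      ≤ Real.exp (2 * π * ((-φ.order).toNat : ℕ) * τ.im) * C :=
        mul_le_mul hpow hg (by positivity) (Real.exp_pos _).le
    _ = C * Real.exp (2 * π * ((-φ.order).toNat : ℕ) * τ.im) := mul_comm _ _

/-! ### The invariant polynomial principle -/

/-- Evaluation at a point, as a ring hom on `Hol`. -/
def evalAt (B : HolBase N) (τ : ℍ) : B.Hol →+* ℂ where
  toFun h := (h : ℍ → ℂ) τ
  map_one' := rfl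
  map_mul' _ _ := rfl
  map_zero' := rfl
  map_add' _ _ := rfl

theorem evalJ_apply (B : HolBase N) (p : Polynomial ℂ) (τ : ℍ) :
    ((H644.evalJ B p : B.Hol) : ℍ → ℂ) τ = p.eval (B.J 1 τ) := by
  have h := Polynomial.hom_eval₂ p (H644.constHom B) (evalAt B τ) (B.JH 1 (one_dvd N))
  have h2 : (evalAt B τ).comp (H644.constHom B) = RingHom.id ℂ := by
    ext c
    rfl
  rw [h2] at h
  exact h.trans (Polynomial.eval₂_id)

theorem invariantPoly_holBaseJ : H644.InvariantPoly (holBaseJ N) := by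
  intro h hinv
  have hmem : (h : ℍ → ℂ) ∈ holSubring N := h.2
  have hinv' : ∀ (γ : SL(2, ℤ)) (τ : ℍ), (h : ℍ → ℂ) (γ • τ) = (h : ℍ → ℂ) τ := by
    intro γ τ
    have := congrArg (fun f : (holBaseJ N).Hol => (f : ℍ → ℂ) τ) (hinv γ)
    exact this
  obtain ⟨m, C, A, hgr⟩ := exists_growth_of_infExp (holQexp_spec (N := N) ⟨_, hmem⟩)
  obtain ⟨P, -, hP⟩ := H108.exists_polynomial_of_invariant_of_exp_growth (h : ℍ → ℂ)
    (mdiff_of_mem_holSubring hmem) hinv' m ⟨C, A, hgr⟩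
  refine ⟨P, Subtype.ext (funext fun τ => ?_)⟩
  rw [evalJ_apply, holBaseJ_J_one]
  exact hP τ

/-! ### The degree bound and the full package -/

variable (N)

/-- **Degree bound**: `[FF N : ℚ̄(j)] ≤ |SL₂(ℤ)/Γ₀(N)|`. -/
theorem degree_bound_J :
    FiniteDimensional ↥(IntermediateField.adjoin Kbar {jF N}) (FF N) ∧
      Module.finrank ↥(IntermediateField.adjoin Kbar {jF N}) (FF N) ≤ Nat.card (XX N) :=
  H644.degree_bound (B := holBaseJ N) invariantPoly_holBaseJ

theorem finiteDimensional_FF :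
    FiniteDimensional ↥(IntermediateField.adjoin Kbar {jF N}) (FF N) :=
  (degree_bound_J N).1

/-- **All fields of helper984's `ModularPackage N`**, unconditionally. -/
theorem modularPackage_fields :
    ∃ (dataFin : ∀ a : Kbar, LocalData Kbar (FF N) ℂ (XX N) (jF N - algebraMap Kbar (FF N) a))
      (dataInf : LocalData Kbar (FF N) ℂ (XX N) (jF N)⁻¹),
      Module.finrank ↥(IntermediateField.adjoin Kbar {jF N}) (FF N) = Nat.card (XX N) ∧
      (∀ a : Kbar, a ≠ 0 → a ≠ 1728 → (dataFin a).perm = 1) ∧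
      numOrbits (dataFin 0).perm = numOrbits (permOf N (ModularGroup.S * ModularGroup.T)) ∧
      numOrbits (dataFin 1728).perm = numOrbits (permOf N ModularGroup.S) ∧
      numOrbits dataInf.perm = numOrbits (permOf N ModularGroup.T) :=
  modularPackage_fields_of_degree N (degree_bound_J N).1 (degree_bound_J N).2

end Fermat.Agent.S24.H564
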