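import Mathlib

/-!
# S24 / MOD glue (helper368): degree of a field extension from embeddings

* `finrank_le_of_forall_natDegree_minpoly_le`: in characteristic zero, if every element of `F`
  is integral over `E` with minimal polynomial of degree `≤ n`, then `[F : E] ≤ n` (and finite).
* `card_le_finrank_of_embeddings`: `n` distinct ring embeddings `F → L` agreeing on `E` force
  `n ≤ [F : E]`.
* `isIntegral_natDegree_le_of_coeff_mem_range`: if the polynomial `∏ₓ (Y - σₓ f)` has coefficients
  in the image of `E`, then `f` is integral over `E` of degree `≤ |X|`.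
-/

set_option autoImplicit false
set_option linter.style.haveILetI false

noncomputable section

open Polynomial IntermediateField Module

namespace Fermat.Agent.S24.H368

section Bounded

variable {E F : Type*} [Field E] [Field F] [Algebra E F] [CharZero E]

/-- In characteristic zero, an algebraic extension all of whose elements have degree `≤ n`
is finite of degree `≤ n`. -/
theorem finrank_le_of_forall_natDegree_minpoly_le (n : ℕ)
    (h : ∀ f : F, IsIntegral E f ∧ (minpoly E f).natDegree ≤ n) :
    FiniteDimensional E F ∧ finrank E F ≤ n := by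
  classical
  -- choose `f` of maximal degree
  have hbdd : ∃ f : F, ∀ g : F, (minpoly E g).natDegree ≤ (minpoly E f).natDegree := by
    by_contra hcon
    push Not at hcon
    -- build elements of arbitrarily large degree
    have : ∀ k : ℕ, ∃ f : F, k ≤ (minpoly E f).natDegree := by
      intro k
      induction k with
      | zero => exact ⟨0, Nat.zero_le _⟩
      | succ k ih =>
        obtain ⟨f, hf⟩ := ih
        obtain ⟨g, hg⟩ := hcon f
        exact ⟨g, by omega⟩
    obtain ⟨f, hf⟩ := this (n + 1)
    have := (h f).2
    omega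
  obtain ⟨f, hf⟩ := hbdd
  have hfint : IsIntegral E f := (h f).1
  have htop : E⟮f⟯ = ⊤ := by
    rw [eq_top_iff]
    intro g _
    -- the field generated by f and g
    let M : IntermediateField E F := E⟮f⟯ ⊔ E⟮g⟯
    haveI : FiniteDimensional E E⟮f⟯ := adjoin.finiteDimensional hfint
    haveI : FiniteDimensional E E⟮g⟯ := adjoin.finiteDimensional (h g).1
    haveI : FiniteDimensional E M := IntermediateField.finiteDimensional_sup _ _
    haveI : Algebra.IsSeparable E M := Algebra.IsSeparable.of_integral E M
    obtain ⟨α, hα⟩ := Field.exists_primitive_element E M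
    have hαint : IsIntegral E α := IsIntegral.of_finite E α
    have h1 : finrank E M = (minpoly E α).natDegree := by
      have := IntermediateField.adjoin.finrank hαint
      rw [hα] at this
      rw [← this]
      exact (IntermediateField.finrank_top').symm
    have h2 : (minpoly E α).natDegree = (minpoly E (α : F)).natDegree := by
      rw [show (α : F) = algebraMap M F α from rfl,
        minpoly.algebraMap_eq (algebraMap M F).injective]
    have h3 : finrank E M ≤ (minpoly E f).natDegree := by
      rw [h1, h2]; exact hf _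
    have h4 : finrank E E⟮f⟯ = (minpoly E f).natDegree := IntermediateField.adjoin.finrank hfint
    have hle : E⟮f⟯ ≤ M := le_sup_left
    have heq : E⟮f⟯ = M := by
      refine IntermediateField.eq_of_le_of_finrank_le hle ?_
      rw [h4]; exact h3
    rw [heq]
    exact (le_sup_right : E⟮g⟯ ≤ M) (mem_adjoin_simple_self E g)
  have hfd : FiniteDimensional E F := by
    haveI : FiniteDimensional E E⟮f⟯ := adjoin.finiteDimensional hfint
    have : FiniteDimensional E (⊤ : IntermediateField E F) := htop ▸ inferInstance
    exact (IntermediateField.topEquiv (F := E) (E := F)).toLinearEquiv.finiteDimensional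
  refine ⟨hfd, ?_⟩
  have h4 : finrank E E⟮f⟯ = (minpoly E f).natDegree := IntermediateField.adjoin.finrank hfint
  have h5 : finrank E (⊤ : IntermediateField E F) = finrank E F := IntermediateField.finrank_top'
  rw [← h5, ← htop, h4]
  exact (h f).2

end Bounded

section Embeddings

variable {E F L X : Type*} [Field E] [Field F] [Algebra E F] [Field L]

/-- `n` pairwise distinct embeddings of `F` agreeing on `E` force `n ≤ [F : E]`. -/
theorem card_le_finrank_of_embeddings [FiniteDimensional E F]
    (σ : X → (F →+* L)) (hσ : Function.Injective σ) (τ : E →+* L)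
    (hτ : ∀ x e, σ x (algebraMap E F e) = τ e) :
    Nat.card X ≤ finrank E F := by
  letI : Algebra E L := τ.toAlgebra
  let φ : X → (F →ₐ[E] L) := fun x =>
    { (σ x) with commutes' := fun e => hτ x e }
  have hφ : Function.Injective φ := by
    intro x y hxy
    apply hσ
    ext f
    exact congrArg (fun ψ : F →ₐ[E] L => ψ f) hxy
  have : Finite (F →ₐ[E] L) := inferInstance
  calc Nat.card X ≤ Nat.card (F →ₐ[E] L) := Nat.card_le_card_of_injective φ hφ
    _ ≤ finrank E F := card_algHom_le_finrank E F L

variable [Finite X]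

/-- If `∏ₓ (Y - σₓ f)` has all its coefficients in the image of `E`, then `f` is integral over
`E` with minimal polynomial of degree at most `|X|`. -/
theorem isIntegral_natDegree_le_of_coeff_mem_range [Nonempty X]
    (σ : X → (F →+* L)) (τ : E →+* L)
    (hτ : ∀ x e, σ x (algebraMap E F e) = τ e) (f : F)
    (hc : letI := Fintype.ofFinite X
      ∀ k, (∏ x : X, (Polynomial.X - Polynomial.C (σ x f))).coeff k ∈ τ.range) :
    IsIntegral E f ∧ (minpoly E f).natDegree ≤ Nat.card X := by
  classical
  letI := Fintype.ofFinite X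
  set P : L[X] := ∏ x : X, (Polynomial.X - Polynomial.C (σ x f)) with hP
  have hPmonic : P.Monic := monic_prod_of_monic _ _ fun x _ => monic_X_sub_C _
  have hPdeg : P.natDegree = Nat.card X := by
    rw [hP, natDegree_prod_of_monic _ _ fun x _ => monic_X_sub_C _]
    simp [Nat.card_eq_fintype_card]
  have hlift : P ∈ Polynomial.lifts τ := (Polynomial.lifts_iff_coeff_lifts P).2 fun k => by
    simpa using hc k
  obtain ⟨q, hq, hqdeg, hqmonic⟩ := Polynomial.lifts_and_natDegree_eq_and_monic hlift hPmonic
  obtain ⟨x0⟩ := (inferInstance : Nonempty X)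
  have hroot : Polynomial.aeval f q = 0 := by
    apply (σ x0).injective
    rw [map_zero, Polynomial.aeval_def, Polynomial.hom_eval₂]
    have : (σ x0).comp (algebraMap E F) = τ := RingHom.ext fun e => hτ x0 e
    rw [this, ← Polynomial.eval_map, hq, hP, Polynomial.eval_prod]
    exact Finset.prod_eq_zero (Finset.mem_univ x0) (by simp)
  have hint : IsIntegral E f := ⟨q, hqmonic, by rwa [Polynomial.aeval_def] at hroot⟩
  refine ⟨hint, ?_⟩
  calc (minpoly E f).natDegree ≤ q.natDegree :=
        Polynomial.natDegree_le_of_dvd (minpoly.dvd E f hroot) hqmonic.ne_zero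
    _ = Nat.card X := by rw [hqdeg, hPdeg]

end Embeddings

end Fermat.Agent.S24.H368

namespace Fermat.Agent.S24.H368

section Scaling

variable {E F : Type*} [Field E] [Field F] [Algebra E F]

/-- Scaling by a nonzero element of the base field does not change integrality nor the degree
of the minimal polynomial. -/
theorem isIntegral_natDegree_smul {c : E} (hc : c ≠ 0) {g : F} (n : ℕ)
    (hg : IsIntegral E g ∧ (minpoly E g).natDegree ≤ n) :
    IsIntegral E (c • g) ∧ (minpoly E (c • g)).natDegree ≤ n := by
  have hint : IsIntegral E (c • g) := hg.1.smul c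
  refine ⟨hint, ?_⟩
  have h1 : E⟮c • g⟯ = E⟮g⟯ := by
    apply le_antisymm
    · rw [adjoin_simple_le_iff]
      exact (E⟮g⟯).smul_mem (mem_adjoin_simple_self E g)
    · rw [adjoin_simple_le_iff]
      have hmem : c⁻¹ • (c • g) ∈ E⟮c • g⟯ :=
        (E⟮c • g⟯).smul_mem (mem_adjoin_simple_self E (c • g))
      rwa [smul_smul, inv_mul_cancel₀ hc, one_smul] at hmem
  have h2 := IntermediateField.adjoin.finrank hint
  have h3 := IntermediateField.adjoin.finrank hg.1
  rw [h1] at h2
  omega

end Scaling

section Subring

variable {E F L X : Type*} [Field E] [Field F] [Algebra E F] [Field L] [Finite X] [Nonempty X]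

/-- From a generating subring to the whole field: if for every `r` in a subring `R ⊆ F`
(containing the image of a subring `E₀ ⊆ E`, and whose fractions exhaust `F`) the polynomial
`∏ₓ (Y - σₓ r)` has coefficients in `τ(E₀)`, then every element of `F` is integral over `E`
of degree `≤ |X|`. -/
theorem forall_isIntegral_natDegree_le
    (σ : X → (F →+* L)) (τ : E →+* L)
    (hτ : ∀ x e, σ x (algebraMap E F e) = τ e)
    (E₀ : Subring E) (R : Subring F) (hER : ∀ e ∈ E₀, algebraMap E F e ∈ R)
    (hR : ∀ f : F, ∃ a ∈ R, ∃ b ∈ R, b ≠ 0 ∧ f = a / b)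
    (hc : letI := Fintype.ofFinite X
      ∀ r ∈ R, ∀ k, ∃ e ∈ E₀, τ e = (∏ x : X, (Polynomial.X - Polynomial.C (σ x r))).coeff k)
    (f : F) : IsIntegral E f ∧ (minpoly E f).natDegree ≤ Nat.card X := by
  classical
  letI := Fintype.ofFinite X
  have hRint : ∀ r ∈ R, IsIntegral E r ∧ (minpoly E r).natDegree ≤ Nat.card X := by
    intro r hr
    refine isIntegral_natDegree_le_of_coeff_mem_range σ τ hτ r ?_
    intro k
    obtain ⟨e, -, he⟩ := hc r hr k
    exact RingHom.mem_range.2 ⟨e, he⟩
  obtain ⟨a, ha, b, hb, hb0, rfl⟩ := hR f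
  set n := Nat.card X with hn
  set P : L[X] := ∏ x : X, (Polynomial.X - Polynomial.C (σ x b)) with hP
  have hPmonic : P.Monic := monic_prod_of_monic _ _ fun x _ => monic_X_sub_C _
  have hPdeg : P.natDegree = n := by
    rw [hP, natDegree_prod_of_monic _ _ fun x _ => monic_X_sub_C _]
    simp [hn, Nat.card_eq_fintype_card]
  choose e he₀ he using hc b hb
  obtain ⟨x0⟩ := (inferInstance : Nonempty X)
  -- the polynomial relation `∑_{k ≤ n} e k * b ^ k = 0`
  have hrel : ∑ k ∈ Finset.range (n + 1), algebraMap E F (e k) * b ^ k = 0 := by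
    apply (σ x0).injective
    rw [map_zero, map_sum]
    have h1 : ∀ k ∈ Finset.range (n + 1),
        σ x0 (algebraMap E F (e k) * b ^ k) = P.coeff k * (σ x0 b) ^ k := by
      intro k _
      rw [map_mul, map_pow, hτ, he k]
    rw [Finset.sum_congr rfl h1]
    have h2 : P.eval (σ x0 b) = 0 := by
      rw [hP, Polynomial.eval_prod]
      exact Finset.prod_eq_zero (Finset.mem_univ x0) (by simp)
    rw [Polynomial.eval_eq_sum_range, hPdeg] at h2
    exact h2
  have he0 : e 0 ≠ 0 := by
    intro h0
    have h1 : P.coeff 0 = 0 := by rw [← he 0, h0, map_zero]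
    have h2 : P.eval 0 = 0 := by rw [← Polynomial.coeff_zero_eq_eval_zero]; exact h1
    rw [hP, Polynomial.eval_prod] at h2
    obtain ⟨x, -, hx⟩ := Finset.prod_eq_zero_iff.1 h2
    simp only [Polynomial.eval_sub, Polynomial.eval_X, Polynomial.eval_C, zero_sub,
      neg_eq_zero] at hx
    exact hb0 ((map_eq_zero (σ x)).1 hx)
  -- `b * r' = e 0`
  set r' : F := -∑ k ∈ Finset.range n, algebraMap E F (e (k + 1)) * b ^ k with hr'
  have hr'R : r' ∈ R := by
    rw [hr']
    refine R.neg_mem (R.sum_mem fun k _ => R.mul_mem (hER _ (he₀ _)) (R.pow_mem hb k))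
  have hbr : b * r' = algebraMap E F (e 0) := by
    rw [Finset.sum_range_succ'] at hrel
    simp only [pow_zero, mul_one] at hrel
    have : b * r' = -∑ k ∈ Finset.range n, algebraMap E F (e (k + 1)) * b ^ (k + 1) := by
      rw [hr', mul_neg, Finset.mul_sum]
      congr 1
      refine Finset.sum_congr rfl fun k _ => ?_
      ring
    rw [this]
    linear_combination -hrel
  have he0F : algebraMap E F (e 0) ≠ 0 := (map_ne_zero (algebraMap E F)).2 he0
  have hr'0 : r' ≠ 0 := by
    intro h
    rw [h, mul_zero] at hbr
    exact he0F hbr.symm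
  have hfrac : a / b = (e 0)⁻¹ • (a * r') := by
    rw [Algebra.smul_def, map_inv₀, ← hbr]
    field_simp
  rw [hfrac]
  exact isIntegral_natDegree_smul (inv_ne_zero he0) _ (hRint _ (R.mul_mem ha hr'R))

/-- **Degree from embeddings.**  Characteristic zero; `|X|` pairwise distinct embeddings
`σ x : F →+* L` agreeing with `τ` on `E`; symmetric functions of the conjugates of elements of
a generating subring `R` lie in `τ(E₀)`.  Then `F / E` is finite of degree exactly `|X|`. -/
theorem finrank_eq_card_of_embeddings [CharZero E]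
    (σ : X → (F →+* L)) (hσ : Function.Injective σ) (τ : E →+* L)
    (hτ : ∀ x e, σ x (algebraMap E F e) = τ e)
    (E₀ : Subring E) (R : Subring F) (hER : ∀ e ∈ E₀, algebraMap E F e ∈ R)
    (hR : ∀ f : F, ∃ a ∈ R, ∃ b ∈ R, b ≠ 0 ∧ f = a / b)
    (hc : letI := Fintype.ofFinite X
      ∀ r ∈ R, ∀ k, ∃ e ∈ E₀, τ e = (∏ x : X, (Polynomial.X - Polynomial.C (σ x r))).coeff k) :
    FiniteDimensional E F ∧ finrank E F = Nat.card X := by
  obtain ⟨hfd, hle⟩ := finrank_le_of_forall_natDegree_minpoly_le (E := E) (F := F) (Nat.card X)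
    (forall_isIntegral_natDegree_le σ τ hτ E₀ R hER hR hc)
  exact ⟨hfd, le_antisymm hle (card_le_finrank_of_embeddings σ hσ τ hτ)⟩

end Subring

end Fermat.Agent.S24.H368
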