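import Fermat.Agent.S24.Defs

/-!
# S24 / MOD / M4 (part b): the function field `F` is the fraction field of `R = ℚ̄[j(q^d) : d ∣ N]`
-/

set_option autoImplicit false

noncomputable section

open AlgebraicCurve ModularCurve IntermediateField

namespace Fermat.Agent.S24.Emb

variable (N : ℕ)

/-- The generators `j(q^d)`, `d ∣ N`, inside `ℚ̄((q))`. -/
def genSet : Set (LaurentSeries Kbar) :=
  ⇑(coeffEmb Kbar) '' divisorExpansions N

theorem coeffEmb_mem_adjoin_genSet_aux {x : LaurentSeries ℚ}
    (hx : x ∈ Subfield.closure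
      (Set.range (algebraMap ℚ (LaurentSeries ℚ)) ∪ divisorExpansions N)) :
    coeffEmb Kbar x ∈ IntermediateField.adjoin Kbar (genSet N) := by
  induction hx using Subfield.closure_induction with
  | mem y hy =>
      rcases hy with ⟨a, rfl⟩ | hy
      · have h : coeffEmb Kbar (algebraMap ℚ (LaurentSeries ℚ) a)
            = algebraMap Kbar (LaurentSeries Kbar) (algebraMap ℚ Kbar a) := by
          rw [algebraMap_apply_eq_single, algebraMap_laurentSeries_eq_single, coeffEmb,
            coeffMap_single]
        rw [h]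
        exact (IntermediateField.adjoin Kbar (genSet N)).algebraMap_mem _
      · exact IntermediateField.subset_adjoin Kbar _ ⟨y, hy, rfl⟩
  | one => simp
  | add x y _ _ hx hy => simpa using add_mem hx hy
  | neg x _ hx => simpa using neg_mem hx
  | inv x _ hx => simpa using inv_mem hx
  | mul x y _ _ hx hy => simpa using mul_mem hx hy

theorem coeffEmb_mem_adjoin_genSet {x : LaurentSeries ℚ} (hx : x ∈ modularFunctionFieldFull N) :
    coeffEmb Kbar x ∈ IntermediateField.adjoin Kbar (genSet N) :=
  coeffEmb_mem_adjoin_genSet_aux N hx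

/-- `F = ℚ̄(j(q^d) : d ∣ N)` is generated over `ℚ̄` by the images of the `j(q^d)`. -/
theorem modularFunctionFieldBar_eq_adjoin :
    modularFunctionFieldBar N = IntermediateField.adjoin Kbar (genSet N) := by
  apply le_antisymm
  · rw [modularFunctionFieldBar, laurentBaseChange, IntermediateField.adjoin_le_iff]
    rintro y ⟨x, hx, rfl⟩
    exact coeffEmb_mem_adjoin_genSet N hx
  · rw [IntermediateField.adjoin_le_iff]
    rintro y ⟨x, hx, rfl⟩
    exact coeffEmb_mem_laurentBaseChange Kbar
      (IntermediateField.subset_adjoin ℚ _ hx)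

end Fermat.Agent.S24.Emb

namespace Fermat.Agent.S24.Emb

variable (N : ℕ)

/-- The generators `j(q^d)`, `d ∣ N`, as elements of `F`. -/
def genSetF : Set (FF N) := {x | (x : LaurentSeries Kbar) ∈ genSet N}

/-- `R = ℚ̄[j(q^d) : d ∣ N] ⊆ F`. -/
def R : Subalgebra Kbar (FF N) := Algebra.adjoin Kbar (genSetF N)

theorem genSet_subset : genSet N ⊆ (modularFunctionFieldBar N : Set (LaurentSeries Kbar)) := by
  rw [modularFunctionFieldBar_eq_adjoin]
  exact IntermediateField.subset_adjoin Kbar _

theorem val_image_genSetF :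
    (⇑(modularFunctionFieldBar N).val) '' genSetF N = genSet N := by
  ext y
  constructor
  · rintro ⟨x, hx, rfl⟩
    exact hx
  · intro hy
    exact ⟨⟨y, genSet_subset N hy⟩, hy, rfl⟩

theorem map_val_R :
    (R N).map (modularFunctionFieldBar N).val = Algebra.adjoin Kbar (genSet N) := by
  rw [R, AlgHom.map_adjoin, val_image_genSetF]

theorem exists_div_R (z : FF N) :
    ∃ x y : R N, z = algebraMap (R N) (FF N) x / algebraMap (R N) (FF N) y := by
  obtain ⟨z, hz⟩ := z
  have hz' : z ∈ IntermediateField.adjoin Kbar (genSet N) := by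
    rw [← modularFunctionFieldBar_eq_adjoin]; exact hz
  obtain ⟨x, hx, y, hy, rfl⟩ := IntermediateField.mem_adjoin_iff_div.mp hz'
  rw [← map_val_R] at hx hy
  obtain ⟨x', hx', rfl⟩ := hx
  obtain ⟨y', hy', rfl⟩ := hy
  refine ⟨⟨x', hx'⟩, ⟨y', hy'⟩, ?_⟩
  apply Subtype.ext
  simp

instance instIsFractionRingR : IsFractionRing (R N) (FF N) :=
  IsFractionRing.of_field _ _ (exists_div_R N)

end Fermat.Agent.S24.Emb
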