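import Mathlib

/-!
# S24 / MOD glue (helper368): order / leading-coefficient relations pass to fractions

If two embeddings `σ σ' : F →+* LaurentSeries C` satisfy the two `LocalData` axioms
(`order` equal, `leadingCoeff` twisted by `ζ ^ order`) on a set `R` of elements whose
fractions exhaust `F`, they satisfy them on all of `F`.
-/

set_option autoImplicit false

noncomputable section

namespace Fermat.Agent.S24.H368

variable {F C : Type*} [Field F] [Field C]

/-- The relation between `σ' f` and `σ f` demanded by `LocalData.σ_perm_order` and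
`LocalData.σ_perm_leadingCoeff`. -/
def Twisted (σ σ' : F →+* LaurentSeries C) (ζ : C) (f : F) : Prop :=
  (σ' f).order = (σ f).order ∧
    (σ' f).leadingCoeff = ζ ^ (σ f).order * (σ f).leadingCoeff

theorem twisted_zero (σ σ' : F →+* LaurentSeries C) (ζ : C) : Twisted σ σ' ζ 0 := by
  simp [Twisted]

theorem Twisted.mul {σ σ' : F →+* LaurentSeries C} {ζ : C} (hζ : ζ ≠ 0) {f g : F}
    (hf : Twisted σ σ' ζ f) (hg : Twisted σ σ' ζ g) : Twisted σ σ' ζ (f * g) := by
  by_cases hf0 : f = 0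
  · subst hf0; simpa using twisted_zero σ σ' ζ
  by_cases hg0 : g = 0
  · subst hg0; simpa using twisted_zero σ σ' ζ
  have h1 : σ f ≠ 0 := (map_ne_zero σ).2 hf0
  have h2 : σ g ≠ 0 := (map_ne_zero σ).2 hg0
  have h1' : σ' f ≠ 0 := (map_ne_zero σ').2 hf0
  have h2' : σ' g ≠ 0 := (map_ne_zero σ').2 hg0
  refine ⟨?_, ?_⟩
  · rw [map_mul, map_mul, HahnSeries.order_mul h1' h2', HahnSeries.order_mul h1 h2, hf.1, hg.1]
  · rw [map_mul, map_mul, HahnSeries.leadingCoeff_mul, HahnSeries.leadingCoeff_mul,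
      HahnSeries.order_mul h1 h2, hf.2, hg.2, zpow_add₀ hζ]
    ring

theorem Twisted.inv {σ σ' : F →+* LaurentSeries C} {ζ : C} (hζ : ζ ≠ 0) {f : F}
    (hf : Twisted σ σ' ζ f) : Twisted σ σ' ζ f⁻¹ := by
  by_cases hf0 : f = 0
  · subst hf0; simpa using twisted_zero σ σ' ζ
  have h1 : σ f ≠ 0 := (map_ne_zero σ).2 hf0
  have h1' : σ' f ≠ 0 := (map_ne_zero σ').2 hf0
  have hi : σ f⁻¹ ≠ 0 := (map_ne_zero σ).2 (inv_ne_zero hf0)
  have hi' : σ' f⁻¹ ≠ 0 := (map_ne_zero σ').2 (inv_ne_zero hf0)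
  -- order (σ f⁻¹) + order (σ f) = 0
  have ho : (σ f⁻¹).order + (σ f).order = 0 := by
    rw [← HahnSeries.order_mul hi h1, ← map_mul, inv_mul_cancel₀ hf0, map_one,
      HahnSeries.order_one]
  have ho' : (σ' f⁻¹).order + (σ' f).order = 0 := by
    rw [← HahnSeries.order_mul hi' h1', ← map_mul, inv_mul_cancel₀ hf0, map_one,
      HahnSeries.order_one]
  have hl : (σ f⁻¹).leadingCoeff * (σ f).leadingCoeff = 1 := by
    rw [← HahnSeries.leadingCoeff_mul, ← map_mul, inv_mul_cancel₀ hf0, map_one,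
      HahnSeries.leadingCoeff_one]
  have hl' : (σ' f⁻¹).leadingCoeff * (σ' f).leadingCoeff = 1 := by
    rw [← HahnSeries.leadingCoeff_mul, ← map_mul, inv_mul_cancel₀ hf0, map_one,
      HahnSeries.leadingCoeff_one]
  have hord : (σ' f⁻¹).order = (σ f⁻¹).order := by
    have := hf.1
    omega
  refine ⟨hord, ?_⟩
  have hlc : (σ f).leadingCoeff ≠ 0 := HahnSeries.leadingCoeff_ne_zero.2 h1
  have hlc' : (σ' f).leadingCoeff ≠ 0 := HahnSeries.leadingCoeff_ne_zero.2 h1'
  have hz : ζ ^ (σ f).order ≠ 0 := zpow_ne_zero _ hζ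
  have e1 : (σ' f⁻¹).leadingCoeff = ((σ' f).leadingCoeff)⁻¹ := eq_inv_of_mul_eq_one_left hl'
  have e2 : (σ f⁻¹).leadingCoeff = ((σ f).leadingCoeff)⁻¹ := eq_inv_of_mul_eq_one_left hl
  have e3 : (σ f⁻¹).order = -(σ f).order := by omega
  rw [e1, e2, e3, hf.2, zpow_neg, mul_inv]

/-- **Fractions.**  If every element of `F` is a quotient of elements of `R` and the twisting
relation holds on `R`, it holds on `F`. -/
theorem twisted_of_fractions (σ σ' : F →+* LaurentSeries C) (ζ : C) (hζ : ζ ≠ 0) (R : Set F)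
    (hR : ∀ f : F, ∃ a ∈ R, ∃ b ∈ R, f = a / b)
    (h : ∀ r ∈ R, Twisted σ σ' ζ r) (f : F) : Twisted σ σ' ζ f := by
  obtain ⟨a, ha, b, hb, rfl⟩ := hR f
  rw [div_eq_mul_inv]
  exact (h a ha).mul hζ ((h b hb).inv hζ)

end Fermat.Agent.S24.H368
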