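import Fermat.Agent.S24.Mod.H564HolBase
import Fermat.Agent.S24.Mod.H997Taylor

/-!
# S24 / MOD — `Nonempty (AnalyticCore N)` (helper564)

helper997's `HolBase.toAnalyticCore` applied to the concrete `holBaseJ N`
(ring of holomorphic functions with convergent `q^{1/N}`-expansions of all translates,
`J = E₄³/Δ`).
-/

set_option autoImplicit false

noncomputable section

open HahnSeries ModularCurve UpperHalfPlane Complex
open scoped Real MatrixGroups Manifold

namespace Fermat.Agent.S24.H564

open Fermat.Agent.S24.H997

variable (N : ℕ) [NeZero N]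

theorem jFun_eq_L1 : JFun.jFun = Fermat.Agent.S20.L1.jFun := rfl

theorem holBaseJ_isHolo : (holBaseJ N).IsHolo where
  mdiff _ hf := mdiff_of_mem_holSubring hf
  J_one := by
    funext τ
    exact holBaseJ_J_one τ

/-- **The analytic core** of the modular package. -/
def analyticCore : AnalyticCore N :=
  (holBaseJ N).toAnalyticCore (holBaseJ_isHolo N) (zetaInf N) (isPrimitiveRoot_zetaInf N)
    holBaseJ_inf_shift

theorem nonempty_analyticCore : Nonempty (AnalyticCore N) := ⟨analyticCore N⟩

/-- All fields of `ModularPackage N` except the degree bound. -/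
theorem modularPackage_fields_of_degree
    (hfd : FiniteDimensional ↥(IntermediateField.adjoin Kbar {jF N}) (FF N))
    (hle : Module.finrank ↥(IntermediateField.adjoin Kbar {jF N}) (FF N) ≤ Nat.card (XX N)) :
    ∃ (dataFin : ∀ a : Kbar, LocalData Kbar (FF N) ℂ (XX N) (jF N - algebraMap Kbar (FF N) a))
      (dataInf : LocalData Kbar (FF N) ℂ (XX N) (jF N)⁻¹),
      Module.finrank ↥(IntermediateField.adjoin Kbar {jF N}) (FF N) = Nat.card (XX N) ∧
      (∀ a : Kbar, a ≠ 0 → a ≠ 1728 → (dataFin a).perm = 1) ∧
      numOrbits (dataFin 0).perm = numOrbits (permOf N (ModularGroup.S * ModularGroup.T)) ∧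
      numOrbits (dataFin 1728).perm = numOrbits (permOf N ModularGroup.S) ∧
      numOrbits dataInf.perm = numOrbits (permOf N ModularGroup.T) :=
  (analyticCore N).modularPackage_fields hfd hle

end Fermat.Agent.S24.H564
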