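import Fermat.Agent.S24.Inf.Gen
import Fermat.Agent.S24.Mod.H997Core
import Fermat.Agent.S24.JFun.Laurent

/-!
# S24 / MOD — a concrete term of helper997's `HolBase N` (helper564)

`Hol` is the ring of holomorphic functions `f : ℍ → ℂ` such that every `f ∘ g`, `g ∈ SL(2,ℤ)`,
has a convergent Laurent expansion in `z = exp (2πiτ/N)` (helper384's `expRing N`).  The
expansion map is helper384's `expInf N`, and `J d τ = J (dτ)`.

Inputs: an abstract `J : ℍ → ℂ`, holomorphic, `SL(2,ℤ)`-invariant, with `q`-expansion the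
Prelude series `jq` — and at the end the concrete instance `J = E₄³/Δ` (helper264's `jFun`).
-/

set_option autoImplicit false

noncomputable section

open HahnSeries ModularCurve UpperHalfPlane Complex
open scoped Real MatrixGroups Manifold

namespace Fermat.Agent.S24.H564

open Fermat.Agent.S24.H997

/-! ### Holomorphy of the substitutions -/

theorem mdiff_compSL (g : SL(2, ℤ)) {f : ℍ → ℂ} (hf : MDiff f) : MDiff (compSL g f) :=
  hf.comp (UpperHalfPlane.mdifferentiable_smul (g := (g : GL (Fin 2) ℝ)) (by simp))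

theorem mdiff_comp_infAff {J : ℍ → ℂ} (hJ : MDiff J) {a d : ℕ} (ha : 0 < a) (hd : 0 < d)
    (b : ℤ) : MDiff (fun τ => J (infAff a b d τ)) := by
  rw [UpperHalfPlane.mdifferentiable_iff] at hJ ⊢
  have hmap : ∀ z ∈ {z : ℂ | 0 < z.im}, ((a : ℂ) * z + b) / d ∈ {z : ℂ | 0 < z.im} := by
    intro z hz
    exact (infAff a b d ⟨z, hz⟩).im_pos.trans_eq (by rw [← UpperHalfPlane.coe_im,
      infAff_coe ha hd])
  have hdiff : DifferentiableOn ℂ (fun z : ℂ => ((a : ℂ) * z + b) / d) {z : ℂ | 0 < z.im} := by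
    intro z _
    exact ((differentiableAt_id.const_mul _).add_const _).div_const _ |>.differentiableWithinAt
  have h2 : DifferentiableOn ℂ ((J ∘ ofComplex) ∘ fun z : ℂ => ((a : ℂ) * z + b) / d)
      {z : ℂ | 0 < z.im} := hJ.comp hdiff hmap
  refine h2.congr ?_
  intro z hz
  simp only [Function.comp_apply]
  congr 1
  apply UpperHalfPlane.ext
  rw [infAff_coe ha hd, ofComplex_apply_of_im_pos hz, ofComplex_apply_of_im_pos (hmap z hz)]

/-! ### The ring `Hol` -/

/-- Holomorphic functions on `ℍ` all of whose `SL(2,ℤ)`-translates have a convergent Laurent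
expansion in `exp (2πiτ/N)`. -/
def holSubring (N : ℕ) [NeZero N] : Subring (ℍ → ℂ) where
  carrier := {f | MDiff f ∧ ∀ g : SL(2, ℤ), compSL g f ∈ expRing N}
  mul_mem' := by
    rintro f h ⟨hf, hf'⟩ ⟨hh, hh'⟩
    exact ⟨hf.mul hh, fun g => (expRing N).mul_mem (hf' g) (hh' g)⟩
  one_mem' := ⟨mdifferentiable_const, fun _ => (expRing N).one_mem⟩
  add_mem' := by
    rintro f h ⟨hf, hf'⟩ ⟨hh, hh'⟩
    exact ⟨hf.add hh, fun g => (expRing N).add_mem (hf' g) (hh' g)⟩
  zero_mem' := ⟨mdifferentiable_const, fun _ => (expRing N).zero_mem⟩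
  neg_mem' := by
    rintro f ⟨hf, hf'⟩
    exact ⟨hf.neg, fun g => (expRing N).neg_mem (hf' g)⟩

variable {N : ℕ} [NeZero N]

theorem mem_holSubring {f : ℍ → ℂ} :
    f ∈ holSubring N ↔ MDiff f ∧ ∀ g : SL(2, ℤ), compSL g f ∈ expRing N := Iff.rfl

theorem mdiff_of_mem_holSubring {f : ℍ → ℂ} (hf : f ∈ holSubring N) : MDiff f := hf.1

theorem holSubring_le_expRing : holSubring N ≤ expRing N := by
  intro f hf
  have := hf.2 1
  rwa [compSL_one] at this

theorem const_mem_holSubring (c : ℂ) : (fun _ : ℍ => c) ∈ holSubring N :=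
  ⟨mdifferentiable_const, fun _ => (InfExp.const c).mem_expRing⟩

theorem compSL_mem_holSubring (g : SL(2, ℤ)) {f : ℍ → ℂ} (hf : f ∈ holSubring N) :
    compSL g f ∈ holSubring N :=
  ⟨mdiff_compSL g hf.1, fun g' => by rw [← compSL_mul]; exact hf.2 _⟩

/-- The inclusion `Hol → expRing N`. -/
def holToExp (N : ℕ) [NeZero N] : holSubring N →+* expRing N :=
  Subring.inclusion holSubring_le_expRing

theorem holToExp_injective : Function.Injective (holToExp N) :=
  Subring.inclusion_injective _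

/-- The expansion at `i∞` in `z = exp (2πiτ/N)` on `Hol`. -/
def holQexp (N : ℕ) [NeZero N] : holSubring N →+* LaurentSeries ℂ :=
  (expInf N).comp (holToExp N)

theorem holQexp_injective : Function.Injective (holQexp N) :=
  (expInf_injective (N := N)).comp holToExp_injective

theorem holQexp_spec (f : holSubring N) : InfExp N (f : ℍ → ℂ) (holQexp N f) :=
  expInf_spec (holToExp N f)

theorem holQexp_eq {f : ℍ → ℂ} (hf : f ∈ holSubring N) {φ : LaurentSeries ℂ}
    (h : InfExp N f φ) : holQexp N ⟨f, hf⟩ = φ :=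
  (holQexp_spec ⟨f, hf⟩).unique h

theorem holQexp_const (c : ℂ) :
    holQexp N ⟨_, const_mem_holSubring c⟩ = HahnSeries.C c :=
  holQexp_eq _ (InfExp.const c)

/-! ### The functions `J d` -/

section Abstract

variable {J : ℍ → ℂ}

/-- `Γ₀(N)`-invariance of `τ ↦ J(dτ)` for `d ∣ N`. -/
theorem J_dil_invariant (hinv : ∀ (γ : SL(2, ℤ)) (τ : ℍ), J (γ • τ) = J τ) {d : ℕ}
    (hd : d ∣ N) {g : SL(2, ℤ)} (hg : g ∈ CongruenceSubgroup.Gamma0 N) (τ : ℍ) :
    J (infAff d 0 1 (g • τ)) = J (infAff d 0 1 τ) := by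
  have hN : 0 < N := Nat.pos_of_ne_zero (NeZero.ne N)
  have hd0 : 0 < d := Nat.pos_of_dvd_of_pos hd hN
  rw [CongruenceSubgroup.Gamma0_mem, ZMod.intCast_zmod_eq_zero_iff_dvd] at hg
  obtain ⟨c, hc⟩ : (d : ℤ) ∣ g 1 0 := (Int.natCast_dvd_natCast.mpr hd).trans hg
  have hdet := inf_sl_det g
  let g' : SL(2, ℤ) := ⟨!![g 0 0, (d : ℤ) * g 0 1; c, g 1 1], by
    rw [Matrix.det_fin_two_of]
    rw [hc] at hdet
    linear_combination hdet⟩
  have h := inf_aff_smul_eq (d := d) (a := d) (d' := 1) (b := 0) hd0 hd0 one_pos g g'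
    (by simp [g']; ring) (by simp [g']) (by simp [g', hc]; ring) (by simp [g']) τ
  rw [h, hinv]

variable (N) in
/-- **A concrete `HolBase N`** from an abstract `J`. -/
def holBase (J : ℍ → ℂ) (hol : MDiff J)
    (hinv : ∀ (γ : SL(2, ℤ)) (τ : ℍ), J (γ • τ) = J τ) (hexp : InfExp 1 J infJq) :
    HolBase N where
  Hol := holSubring N
  const_mem := const_mem_holSubring
  comp_mem g f hf := compSL_mem_holSubring g hf
  J d := fun τ => J (infAff d 0 1 τ)
  J_mem d hd :=
    ⟨mdiff_comp_infAff hol (Nat.pos_of_dvd_of_pos hd (Nat.pos_of_ne_zero (NeZero.ne N)))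
        one_pos 0,
      fun g => inf_J_mul_smul_mem_expRing hinv hexp hd g⟩
  J_one_inv g τ := by
    simp only [infAff_one_zero_one]
    exact hinv g τ
  J_inv d hd g hg τ := J_dil_invariant hinv hd hg τ
  J_distinct g h := by
    have := inf_distinct hinv hexp (N := N) g 1 (fun τ => by rw [one_smul]; exact h τ)
    simpa using this
  qexp := holQexp N
  qexp_injective := holQexp_injective
  qexp_const := holQexp_const
  qexp_J d hd k := by
    have hN : 0 < N := Nat.pos_of_ne_zero (NeZero.ne N)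
    have hd0 : 0 < d := Nat.pos_of_dvd_of_pos hd hN
    have : NeZero (d * N) := ⟨(Nat.mul_pos hd0 hN).ne'⟩
    have hE := inf_J_mul_exp hexp hd0 hN
    rw [holQexp_eq _ hE]
    have hcast : ((N * d : ℕ) : ℤ) = ((d * N : ℕ) : ℤ) := by rw [Nat.mul_comm]
    rw [hcast]
    split_ifs with hdvd
    · obtain ⟨m, rfl⟩ := hdvd
      rw [qExpand_coeff_mul, Int.mul_ediv_cancel_left _ (by exact_mod_cast NeZero.ne (d * N))]
      rfl
    · exact qExpand_coeff_of_not_dvd (d * N) _ hdvd

end Abstract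

/-! ### The shift `τ ↦ τ + 1` at the cusp -/

/-- The primitive `N`-th root of unity `exp (2πi/N)`. -/
def zetaInf (N : ℕ) : ℂ := Complex.exp (2 * π * Complex.I / N)

theorem isPrimitiveRoot_zetaInf (N : ℕ) [NeZero N] : IsPrimitiveRoot (zetaInf N) N :=
  Complex.isPrimitiveRoot_exp N (NeZero.ne N)

theorem T_smul_eq_infAff (τ : ℍ) : ModularGroup.T • τ = infAff 1 1 1 τ := by
  apply UpperHalfPlane.ext
  rw [UpperHalfPlane.modular_T_smul, infAff_coe one_pos one_pos, UpperHalfPlane.coe_vadd]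
  push_cast
  ring

/-- Coefficientwise description of the expansion of `h ∘ T`. -/
theorem holQexp_compSL_T {f : ℍ → ℂ} (hf : f ∈ holSubring N) (n : ℤ) :
    (holQexp N ⟨compSL ModularGroup.T f, compSL_mem_holSubring _ hf⟩).coeff n
      = zetaInf N ^ n * (holQexp N ⟨f, hf⟩).coeff n := by
  have h1 := (holQexp_spec (N := N) ⟨f, hf⟩).comp_translate 1
  have h2 : InfExp N (compSL ModularGroup.T f)
      (infTwist (infRoot 1 N) (holQexp N ⟨f, hf⟩)) := by
    refine h1.congr fun τ => ?_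
    simp only [compSL_apply, T_smul_eq_infAff]
  rw [holQexp_eq _ h2, infTwist_coeff, infRoot_zpow_coe, mul_comm, zetaInf]
  simp

/-- The `inf_shift` field of helper997's `AnalyticCore` for `holBase`. -/
theorem holBase_inf_shift (J : ℍ → ℂ) (hol : MDiff J)
    (hinv : ∀ (γ : SL(2, ℤ)) (τ : ℍ), J (γ • τ) = J τ) (hexp : InfExp 1 J infJq)
    (h : (holBase N J hol hinv hexp).Hol) (n : ℤ) :
    ((holBase N J hol hinv hexp).qexp
        ((holBase N J hol hinv hexp).compH ModularGroup.T h)).coeff n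
      = zetaInf N ^ n * ((holBase N J hol hinv hexp).qexp h).coeff n :=
  holQexp_compSL_T h.2 n

/-! ### The concrete `J = E₄³/Δ` -/

theorem jqModC_complex_eq_infJq : ModularCurve.jqModC ℂ = infJq := by
  rw [← ModularCurve.map_jqModC (algebraMap ℚ ℂ), ModularCurve.jqModC_rat]
  rfl

/-- The `q`-expansion of `jFun = E₄³/Δ` is the Prelude series `jq` (helper264's bridge in
helper384's language). -/
theorem infExp_jFun : InfExp 1 JFun.jFun infJq := by
  intro τ
  have h := JFun.hasSum_jFun τ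
  rw [jqModC_complex_eq_infJq] at h
  simpa [infZ] using h

variable (N) in
/-- **The concrete `HolBase N`** for `J = E₄³/Δ`. -/
def holBaseJ : HolBase N :=
  holBase N JFun.jFun JFun.jFun_mdifferentiable JFun.jFun_smul infExp_jFun

theorem holBaseJ_Hol : (holBaseJ N).Hol = holSubring N := rfl

theorem holBaseJ_J (d : ℕ) (τ : ℍ) : (holBaseJ N).J d τ = JFun.jFun (infAff d 0 1 τ) := rfl

theorem holBaseJ_J_one (τ : ℍ) : (holBaseJ N).J 1 τ = JFun.jFun τ := by
  rw [holBaseJ_J, infAff_one_zero_one]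

theorem holBaseJ_qexp : (holBaseJ N).qexp = holQexp N := rfl

theorem holBaseJ_inf_shift (h : (holBaseJ N).Hol) (n : ℤ) :
    ((holBaseJ N).qexp ((holBaseJ N).compH ModularGroup.T h)).coeff n
      = zetaInf N ^ n * ((holBaseJ N).qexp h).coeff n :=
  holQexp_compSL_T h.2 n

end Fermat.Agent.S24.H564
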