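import Fermat.Agent.S24.Mod.H708QInf
import Fermat.Prelude.Def_ModularCurve_X0

/-!
# S24 / MOD-QINF (helper708), part 2: twists, substitution `τ ↦ (aτ+b)/d`

* `twist ξ` : the ring automorphism `φ(z) ↦ φ(ξ z)` of `LaurentSeries ℂ` (`ξ ≠ 0`),
  with `order`/`leadingCoeff` formulas in the shape of `LocalData`.
* `HasQExp.comp_affine` : if `f` has `q_h`-expansion `φ` then `τ ↦ f ((aτ+b)/d)` has
  `q_{h'}`-expansion `qExpand e (twist ξ φ)`, `e = h' a / (d h)`, `ξ = exp (2πi b/(d h))`.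
-/

set_option autoImplicit false
set_option linter.unusedSectionVars false

noncomputable section

namespace Fermat.Agent.S24.H708

open Complex Function Filter
open UpperHalfPlane hiding I
open scoped Manifold Real Topology

/-! ### The twist `φ(z) ↦ φ(ξ z)` -/

/-- `φ(z) ↦ φ(ξ z)` on Laurent series, as a plain function. -/
def twistFun (ξ : ℂ) (φ : LaurentSeries ℂ) : LaurentSeries ℂ where
  coeff n := ξ ^ n * φ.coeff n
  isPWO_support' := φ.isPWO_support.mono (fun n hn => by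
    simp only [Function.mem_support, ne_eq] at hn ⊢
    intro h0
    exact hn (by rw [h0, mul_zero]))

@[simp] lemma twistFun_coeff (ξ : ℂ) (φ : LaurentSeries ℂ) (n : ℤ) :
    (twistFun ξ φ).coeff n = ξ ^ n * φ.coeff n := rfl

lemma twistFun_support {ξ : ℂ} (hξ : ξ ≠ 0) (φ : LaurentSeries ℂ) :
    (twistFun ξ φ).support = φ.support := by
  ext n
  simp [HahnSeries.mem_support, zpow_ne_zero n hξ]

lemma twistFun_mul {ξ : ℂ} (hξ : ξ ≠ 0) (x y : LaurentSeries ℂ) :
    twistFun ξ (x * y) = twistFun ξ x * twistFun ξ y := by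
  ext a
  rw [twistFun_coeff, HahnSeries.coeff_mul, HahnSeries.coeff_mul, Finset.mul_sum]
  refine Finset.sum_congr ?_ ?_
  · ext ij
    simp only [Finset.mem_antidiagonal, twistFun_support hξ]
  · intro ij hij
    rw [Finset.mem_antidiagonal] at hij
    obtain ⟨-, -, rfl⟩ := hij
    rw [twistFun_coeff, twistFun_coeff, zpow_add₀ hξ]
    ring

/-- The ring homomorphism `φ(z) ↦ φ(ξ z)` of `LaurentSeries ℂ`. -/
def twist (ξ : ℂ) (hξ : ξ ≠ 0) : LaurentSeries ℂ →+* LaurentSeries ℂ where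
  toFun := twistFun ξ
  map_one' := by
    ext n
    rw [twistFun_coeff, HahnSeries.coeff_one]
    by_cases hn : n = 0
    · subst hn; simp
    · simp [hn]
  map_mul' := twistFun_mul hξ
  map_zero' := by ext n; simp
  map_add' x y := by ext n; simp [mul_add]

@[simp] lemma twist_coeff {ξ : ℂ} (hξ : ξ ≠ 0) (φ : LaurentSeries ℂ) (n : ℤ) :
    (twist ξ hξ φ).coeff n = ξ ^ n * φ.coeff n := rfl

lemma twist_C {ξ : ℂ} (hξ : ξ ≠ 0) (c : ℂ) : twist ξ hξ (HahnSeries.C c) = HahnSeries.C c := by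
  ext n
  rw [twist_coeff]
  show ξ ^ n * (HahnSeries.single 0 c).coeff n = (HahnSeries.single 0 c).coeff n
  by_cases hn : n = 0
  · subst hn; simp
  · rw [HahnSeries.coeff_single_of_ne hn, mul_zero]

lemma twist_one_eq {hξ : (1 : ℂ) ≠ 0} (φ : LaurentSeries ℂ) : twist 1 hξ φ = φ := by
  ext n; simp

lemma twist_twist {ξ η : ℂ} (hξ : ξ ≠ 0) (hη : η ≠ 0) (φ : LaurentSeries ℂ) :
    twist ξ hξ (twist η hη φ) = twist (ξ * η) (mul_ne_zero hξ hη) φ := by
  ext n
  simp only [twist_coeff, mul_zpow]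
  ring

lemma twist_injective {ξ : ℂ} (hξ : ξ ≠ 0) : Function.Injective (twist ξ hξ) := by
  intro x y hxy
  ext n
  have := congrArg (fun z => z.coeff n) hxy
  simp only [twist_coeff] at this
  exact mul_left_cancel₀ (zpow_ne_zero n hξ) this

lemma twist_eq_zero_iff {ξ : ℂ} (hξ : ξ ≠ 0) {φ : LaurentSeries ℂ} :
    twist ξ hξ φ = 0 ↔ φ = 0 :=
  map_eq_zero_iff _ (twist_injective hξ)

lemma twist_order {ξ : ℂ} (hξ : ξ ≠ 0) (φ : LaurentSeries ℂ) :
    (twist ξ hξ φ).order = φ.order := by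
  by_cases h0 : φ = 0
  · subst h0; simp
  have h0' : twist ξ hξ φ ≠ 0 := fun h => h0 ((twist_eq_zero_iff hξ).mp h)
  apply le_antisymm
  · apply HahnSeries.order_le_of_coeff_ne_zero
    rw [twist_coeff]
    exact mul_ne_zero (zpow_ne_zero _ hξ) (HahnSeries.coeff_order_eq_zero.not.mpr h0)
  · apply HahnSeries.order_le_of_coeff_ne_zero
    have := HahnSeries.coeff_order_eq_zero.not.mpr h0'
    rw [twist_coeff] at this
    exact right_ne_zero_of_mul this

/-- `leadingCoeff` of a twist, in the shape of `LocalData.σ_perm_leadingCoeff`. -/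
lemma twist_leadingCoeff {ξ : ℂ} (hξ : ξ ≠ 0) (φ : LaurentSeries ℂ) :
    (twist ξ hξ φ).leadingCoeff = ξ ^ φ.order * φ.leadingCoeff := by
  rw [HahnSeries.leadingCoeff_eq, HahnSeries.leadingCoeff_eq, twist_order, twist_coeff]


/-! ### Order and leading coefficient of `qExpand` -/

section qExpand

open ModularCurve

variable (e : ℕ) [NeZero e]

lemma qExpand_eq_zero_iff {φ : LaurentSeries ℂ} : qExpand ℂ e φ = 0 ↔ φ = 0 :=
  map_eq_zero_iff _ (qExpand_injective e)

lemma qExpand_order (φ : LaurentSeries ℂ) : (qExpand ℂ e φ).order = (e : ℤ) * φ.order := by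
  by_cases h0 : φ = 0
  · subst h0; simp
  have h0' : qExpand ℂ e φ ≠ 0 := fun h => h0 ((qExpand_eq_zero_iff e).mp h)
  have hepos : (0 : ℤ) < (e : ℤ) := by exact_mod_cast Nat.pos_of_ne_zero (NeZero.ne e)
  apply le_antisymm
  · apply HahnSeries.order_le_of_coeff_ne_zero
    rw [qExpand_coeff_mul]
    exact HahnSeries.coeff_order_eq_zero.not.mpr h0
  · have hne := HahnSeries.coeff_order_eq_zero.not.mpr h0'
    have hdvd : (e : ℤ) ∣ (qExpand ℂ e φ).order := by
      by_contra hnd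
      exact hne (qExpand_coeff_of_not_dvd e φ hnd)
    obtain ⟨k, hk⟩ := hdvd
    rw [hk, qExpand_coeff_mul] at hne
    rw [hk]
    exact mul_le_mul_of_nonneg_left (HahnSeries.order_le_of_coeff_ne_zero hne) hepos.le

lemma qExpand_leadingCoeff (φ : LaurentSeries ℂ) :
    (qExpand ℂ e φ).leadingCoeff = φ.leadingCoeff := by
  rw [HahnSeries.leadingCoeff_eq, HahnSeries.leadingCoeff_eq, qExpand_order, qExpand_coeff_mul]

end qExpand

/-! ### Substitution `τ ↦ (aτ+b)/d` -/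

section subst

open ModularCurve

lemma exp_ne_zero' (z : ℂ) : Complex.exp z ≠ 0 := Complex.exp_ne_zero z

/-- The root of unity / twisting factor `exp (2πi b/(d h))`. -/
def twistFactor (b : ℤ) (d h : ℕ) : ℂ := Complex.exp (2 * π * I * (b : ℂ) / ((d : ℂ) * (h : ℂ)))

lemma twistFactor_ne_zero (b : ℤ) (d h : ℕ) : twistFactor b d h ≠ 0 := Complex.exp_ne_zero _

lemma qh_affine {h h' a d : ℕ} [NeZero h] [NeZero h'] (hd : d ≠ 0) (b : ℤ) (e : ℕ)
    (he : e * (d * h) = h' * a) (τ τ' : ℍ) (hτ' : (τ' : ℂ) = ((a : ℂ) * τ + b) / d) :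
    qh h τ' = twistFactor b d h * qh h' τ ^ e := by
  have hh : (h : ℂ) ≠ 0 := by exact_mod_cast NeZero.ne h
  have hh' : (h' : ℂ) ≠ 0 := by exact_mod_cast NeZero.ne h'
  have hdc : (d : ℂ) ≠ 0 := by exact_mod_cast hd
  have hec : (e : ℂ) * ((d : ℂ) * (h : ℂ)) = (h' : ℂ) * (a : ℂ) := by exact_mod_cast he
  have h1 : (a : ℂ) / ((d : ℂ) * h) = e / h' := by
    rw [div_eq_div_iff (mul_ne_zero hdc hh) hh']
    linear_combination -hec
  have h2 : 2 * (π : ℂ) * I * (((a : ℂ) * τ + b) / d) / h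
      = 2 * π * I * b / (d * h) + 2 * π * I * τ * ((a : ℂ) / ((d : ℂ) * h)) := by
    field_simp
    ring
  have key : 2 * (π : ℂ) * I * (((a : ℂ) * τ + b) / d) / h
      = 2 * π * I * b / (d * h) + e * (2 * π * I * τ / h') := by
    rw [h2, h1]
    ring
  simp only [qh_apply, Function.Periodic.qParam, twistFactor, ← Complex.exp_nat_mul,
    ← Complex.exp_add, hτ']
  refine congrArg Complex.exp ?_
  rw [Complex.ofReal_natCast, Complex.ofReal_natCast]
  exact key

lemma mdiff_comp_affine {f : ℍ → ℂ} (hf : MDiff f) {a d : ℕ} (ha : a ≠ 0) (hd : d ≠ 0) (b : ℤ)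
    (A : ℍ → ℍ) (hA : ∀ τ : ℍ, (A τ : ℂ) = ((a : ℂ) * τ + b) / d) : MDiff (f ∘ A) := by
  rw [UpperHalfPlane.mdifferentiable_iff] at hf ⊢
  have hdc : (d : ℂ) ≠ 0 := by exact_mod_cast hd
  have hapos : (0 : ℝ) < a := by exact_mod_cast Nat.pos_of_ne_zero ha
  have hdpos : (0 : ℝ) < d := by exact_mod_cast Nat.pos_of_ne_zero hd
  have him : ∀ w : ℂ, 0 < w.im → 0 < ((((a : ℂ) * w + b) / d)).im := by
    intro w hw
    have : ((((a : ℂ) * w + b) / d)).im = (a : ℝ) * w.im / d := by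
      have h1 : (((a : ℂ) * w + b) / d) = (((a : ℝ) : ℂ) * w + ((b : ℝ) : ℂ)) / ((d : ℝ) : ℂ) := by
        push_cast; rfl
      rw [h1, Complex.div_ofReal_im]
      simp
    rw [this]
    positivity
  have hg : DifferentiableOn ℂ (fun w : ℂ => ((a : ℂ) * w + b) / d) {z : ℂ | 0 < z.im} := by
    apply Differentiable.differentiableOn
    fun_prop
  have hcomp := hf.comp hg (fun w hw => him w hw)
  refine hcomp.congr ?_
  intro w hw
  simp only [comp_apply]
  congr 1
  apply UpperHalfPlane.ext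
  rw [hA, ofComplex_apply_of_im_pos hw, ofComplex_apply_of_im_pos (him w hw)]

/-- **Substitution.** If `f` has `q_h`-expansion `φ`, then `τ ↦ f ((aτ+b)/d)` has
`q_{h'}`-expansion `φ(ξ z^e)`, where `e = h' a / (d h)` and `ξ = exp (2πi b/(d h))`. -/
theorem HasQExp.comp_affine {h h' a d : ℕ} [NeZero h] [NeZero h'] (ha : a ≠ 0) (hd : d ≠ 0)
    (b : ℤ) (e : ℕ) [NeZero e] (he : e * (d * h) = h' * a) {f : ℍ → ℂ} {φ : LaurentSeries ℂ}
    (hf : HasQExp h f φ) (A : ℍ → ℍ) (hA : ∀ τ : ℍ, (A τ : ℂ) = ((a : ℂ) * τ + b) / d) :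
    HasQExp h' (f ∘ A) (qExpand ℂ e (twist (twistFactor b d h) (twistFactor_ne_zero b d h) φ)) := by
  refine HasQExp.of_hasSum (mdiff_comp_affine hf.mdiff ha hd b A hA) ?_
  intro τ
  set ξ := twistFactor b d h with hξdef
  have hξ : ξ ≠ 0 := twistFactor_ne_zero b d h
  set ψ := qExpand ℂ e (twist ξ hξ φ) with hψ
  have hq : qh h (A τ) = ξ * qh h' τ ^ e := qh_affine hd b e he τ (A τ) (hA τ)
  have hs := hf.hasSum (A τ)
  have hinj : Function.Injective (fun n : ℤ => (e : ℤ) * n) := by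
    intro x y hxy
    have hepos : (e : ℤ) ≠ 0 := by exact_mod_cast NeZero.ne e
    exact mul_left_cancel₀ hepos hxy
  have hrange : ∀ m : ℤ, m ∉ Set.range (fun n : ℤ => (e : ℤ) * n) →
      (fun m : ℤ => ψ.coeff m * qh h' τ ^ m) m = 0 := by
    intro m hm
    have hnd : ¬ (e : ℤ) ∣ m := by
      rintro ⟨k, rfl⟩
      exact hm ⟨k, rfl⟩
    simp only [hψ, qExpand_coeff_of_not_dvd e _ hnd, zero_mul]
  rw [← hinj.hasSum_iff hrange]
  have hfun : ((fun m : ℤ => ψ.coeff m * qh h' τ ^ m) ∘ fun n : ℤ => (e : ℤ) * n)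
      = fun n : ℤ => φ.coeff n * qh h (A τ) ^ n := by
    funext n
    simp only [comp_apply, hψ, qExpand_coeff_mul, twist_coeff, hq, mul_zpow]
    rw [zpow_mul, zpow_natCast]
    ring
  rw [hfun]
  exact hs

/-- Translation `τ ↦ τ + 1`: the expansion is twisted by `ζ_h = exp (2πi/h)`. -/
theorem HasQExp.comp_translate {h : ℕ} [NeZero h] {f : ℍ → ℂ} {φ : LaurentSeries ℂ}
    (hf : HasQExp h f φ) (A : ℍ → ℍ) (hA : ∀ τ : ℍ, (A τ : ℂ) = (τ : ℂ) + 1) :
    HasQExp h (f ∘ A) (twist (twistFactor 1 1 h) (twistFactor_ne_zero 1 1 h) φ) := by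
  have := hf.comp_affine (h' := h) (a := 1) (d := 1) one_ne_zero one_ne_zero 1 1 (by ring) A
    (by intro τ; rw [hA]; push_cast; ring)
  rwa [qExpand_one_apply] at this

/-- Change of period `h → h * k`. -/
theorem HasQExp.of_period_mul {h : ℕ} [NeZero h] (k : ℕ) [NeZero k] {f : ℍ → ℂ}
    {φ : LaurentSeries ℂ} (hf : HasQExp h f φ) :
    haveI : NeZero (h * k) := ⟨mul_ne_zero (NeZero.ne h) (NeZero.ne k)⟩
    HasQExp (h * k) f (qExpand ℂ k φ) := by
  have : NeZero (h * k) := ⟨mul_ne_zero (NeZero.ne h) (NeZero.ne k)⟩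
  have := hf.comp_affine (h' := h * k) (a := 1) (d := 1) one_ne_zero one_ne_zero 0 k (by ring) id
    (by intro τ; simp)
  have h1 : twistFactor 0 1 h = 1 := by simp [twistFactor]
  have h2 : twist (twistFactor 0 1 h) (twistFactor_ne_zero 0 1 h) φ = φ := by
    ext n; simp [h1]
  rwa [h2] at this

end subst

end Fermat.Agent.S24.H708
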