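import Mathlib

/-!
# S24 / MOD / M4 (part a): the "range trick"

If `Q : B → M` is an injective algebra hom (an "expansion map" on a ring of functions) and
`φ : A → M` is a ring hom sending a set `S` of generators into the range of `Q`, then `φ`
restricted to `K[S]` factors uniquely through `Q`.
-/

set_option autoImplicit false

noncomputable section

namespace Fermat.Agent.S24.Emb

variable {K C : Type*} [Field K] [Field C]
variable {A : Type*} [CommRing A] [Algebra K A]
variable {B : Type*} [CommRing B] [Algebra C B]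
variable {M : Type*} [CommRing M] [Algebra C M]

/-- The subalgebra of those `a : A` whose image under `φ` lies in the range of `Q`. -/
def rangeSubalgebra (ι : K →+* C) (φ : A →+* M)
    (hφ : ∀ c : K, φ (algebraMap K A c) = algebraMap C M (ι c))
    (Q : B →ₐ[C] M) : Subalgebra K A where
  carrier := {a | φ a ∈ Set.range Q}
  mul_mem' := by
    rintro a b ⟨x, hx⟩ ⟨y, hy⟩
    exact ⟨x * y, by rw [map_mul, hx, hy, map_mul]⟩
  add_mem' := by
    rintro a b ⟨x, hx⟩ ⟨y, hy⟩
    exact ⟨x + y, by rw [map_add, hx, hy, map_add]⟩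
  algebraMap_mem' := by
    intro c
    exact ⟨algebraMap C B (ι c), by rw [AlgHom.commutes, hφ]⟩

theorem map_mem_range_of_mem_adjoin (ι : K →+* C) (φ : A →+* M)
    (hφ : ∀ c : K, φ (algebraMap K A c) = algebraMap C M (ι c))
    (Q : B →ₐ[C] M) (S : Set A) (hS : ∀ s ∈ S, φ s ∈ Set.range Q)
    {a : A} (ha : a ∈ Algebra.adjoin K S) :
    φ a ∈ Q.range :=
  (Algebra.adjoin_le (S := rangeSubalgebra ι φ hφ Q) hS) ha

/-- The factorisation `ev : K[S] → B` of `φ` through the injective expansion map `Q`. -/
def evOfGenerators (ι : K →+* C) (φ : A →+* M)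
    (hφ : ∀ c : K, φ (algebraMap K A c) = algebraMap C M (ι c))
    (Q : B →ₐ[C] M) (hQ : Function.Injective Q) (S : Set A)
    (hS : ∀ s ∈ S, φ s ∈ Set.range Q) : Algebra.adjoin K S →+* B :=
  ((AlgEquiv.ofInjective Q hQ).symm : Q.range →+* B).comp
    ((φ.comp (Algebra.adjoin K S).val.toRingHom).codRestrict Q.range
      (fun a => map_mem_range_of_mem_adjoin ι φ hφ Q S hS a.2))

section

variable (ι : K →+* C) (φ : A →+* M)
    (hφ : ∀ c : K, φ (algebraMap K A c) = algebraMap C M (ι c))
    (Q : B →ₐ[C] M) (hQ : Function.Injective Q) (S : Set A)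
    (hS : ∀ s ∈ S, φ s ∈ Set.range Q)

theorem Q_evOfGenerators (a : Algebra.adjoin K S) :
    Q (evOfGenerators ι φ hφ Q hQ S hS a) = φ (a : A) := by
  unfold evOfGenerators
  simp only [RingHom.coe_comp, Function.comp_apply]
  set y : Q.range := (φ.comp (Algebra.adjoin K S).val.toRingHom).codRestrict Q.range
      (fun a => map_mem_range_of_mem_adjoin ι φ hφ Q S hS a.2) a with hy
  have h1 : ((AlgEquiv.ofInjective Q hQ) ((AlgEquiv.ofInjective Q hQ).symm y) : M) = (y : M) := by
    rw [AlgEquiv.apply_symm_apply]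
  rw [AlgEquiv.ofInjective_apply] at h1
  exact h1

theorem evOfGenerators_eq_iff (a : Algebra.adjoin K S) (b : B) :
    evOfGenerators ι φ hφ Q hQ S hS a = b ↔ Q b = φ (a : A) := by
  constructor
  · rintro rfl
    exact Q_evOfGenerators ι φ hφ Q hQ S hS a
  · intro h
    apply hQ
    rw [Q_evOfGenerators, h]

theorem evOfGenerators_algebraMap (c : K) :
    evOfGenerators ι φ hφ Q hQ S hS (algebraMap K _ c) = algebraMap C B (ι c) := by
  rw [evOfGenerators_eq_iff, AlgHom.commutes]
  exact (hφ c).symm

theorem evOfGenerators_injective (hφinj : Function.Injective φ) :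
    Function.Injective (evOfGenerators ι φ hφ Q hQ S hS) := by
  intro a b hab
  have h := congrArg Q hab
  rw [Q_evOfGenerators, Q_evOfGenerators] at h
  exact Subtype.ext (hφinj h)

end

end Fermat.Agent.S24.Emb
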